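import Fermat.Agent.S19.Formal.Core

set_option autoImplicit false

/-!
# S33 / (O) : Hopf orders over the inertia-fixed ring

`R` = a PID inside `ℚ̄` whose fraction field is the fixed field of `Γ` (for us `Γ` = inertia at `A ∣ p`,
`R = A^Γ`, uniformiser `p`).  `IsOrd R Γ act 𝒜` = S32/Flat's `IsOrder` with `(ℤ_(ℓ), G_ℚ)` replaced by `(R, Γ)`.
-/

namespace Fermat.Agent.S33.OQ

open Fermat.Agent.S19.Formal

/-- the base ring. -/
structure IsBase (R : Type) [CommRing R] [Algebra R Qb] (Γ : Subgroup Gal) : Prop where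
  inj : Function.Injective (algebraMap R Qb)
  fix : ∀ σ ∈ Γ, ∀ r : R, σ (algebraMap R Qb r) = algebraMap R Qb r
  mem : ∀ z : Qb, (∀ σ ∈ Γ, σ z = z) → IsIntegral R z → z ∈ (algebraMap R Qb).range
  frac : ∀ z : Qb, (∀ σ ∈ Γ, σ z = z) →
    ∃ a b : R, b ≠ 0 ∧ algebraMap R Qb b * z = algebraMap R Qb a

/-- `𝒜` is a Hopf order of `Γ`-equivariant functions on `M`. -/
structure IsOrd (R : Type) [CommRing R] [Algebra R Qb] (Γ : Subgroup Gal)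
    {M : Type} [AddCommGroup M] (act : Gal → M → M) (𝒜 : Subalgebra R (M → Qb)) : Prop where
  fg : (Subalgebra.toSubmodule 𝒜).FG
  eqv : ∀ a ∈ 𝒜, ∀ σ ∈ Γ, ∀ x : M, a (act σ x) = σ (a x)
  sep : ∀ x x' : M, (∀ a ∈ 𝒜, a x = a x') → x = x'
  comul : ∀ a ∈ 𝒜, ∃ (n : ℕ) (u v : Fin n → M → Qb), (∀ i, u i ∈ 𝒜) ∧ (∀ i, v i ∈ 𝒜) ∧
    ∀ x x' : M, a (x + x') = ∑ i, u i x * v i x'

end Fermat.Agent.S33.OQ
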