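import Fermat.Agent.S33.OQ.Defs

set_option autoImplicit false
set_option linter.unusedSectionVars false
set_option linter.unusedVariables false

/-!
# S33 / (O) / O3 : descent of linear independence and the comultiplication of the quotient order
-/

namespace Fermat.Agent.S33.OQ

open Fermat.Agent.S19.Formal

variable {R : Type} [CommRing R] [IsDomain R] [IsPrincipalIdealRing R] [Algebra R Qb]
  {Γ : Subgroup Gal}

/-- `Γ`-equivariant functions which are linearly independent over `R` are linearly independent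
over `ℚ̄` (minimal relation argument). -/
theorem linearIndependent_of_eqv (hB : IsBase R Γ) {X ι : Type} (act : Gal → X → X)
    (hact : ∀ σ ∈ Γ, Function.Surjective (act σ)) (v : ι → X → Qb)
    (hv : ∀ i, ∀ σ ∈ Γ, ∀ x, v i (act σ x) = σ (v i x)) (hli : LinearIndependent R v) :
    LinearIndependent Qb v := by
  classical
  rw [linearIndependent_iff']
  intro s
  induction s using Finset.induction_on with
  | empty => intro g _ i hi; exact absurd hi (Finset.notMem_empty i)
  | insert a s ha ih =>
    intro g hg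
    have hconj : ∀ (t : Finset ι) (c : ι → Qb), ∑ i ∈ t, c i • v i = 0 →
        ∀ σ ∈ Γ, ∑ i ∈ t, σ (c i) • v i = 0 := by
      intro t c hc σ hσ
      funext y
      obtain ⟨x, rfl⟩ := hact σ hσ y
      have h1 := congrFun hc x
      have h2 := congrArg σ h1
      simp only [Finset.sum_apply, Pi.smul_apply, smul_eq_mul, Pi.zero_apply, map_sum, map_mul,
        map_zero] at h2 ⊢
      rw [← h2]
      exact Finset.sum_congr rfl fun i _ => by rw [hv i σ hσ]
    by_cases hga : g a = 0
    · have h1 : ∑ i ∈ s, g i • v i = 0 := by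
        rw [Finset.sum_insert ha, hga, zero_smul, zero_add] at hg
        exact hg
      intro i hi
      rcases Finset.mem_insert.mp hi with rfl | hi
      · exact hga
      · exact ih g h1 i hi
    · exfalso
      set c : ι → Qb := fun i => (g a)⁻¹ * g i with hc
      have hca : c a = 1 := inv_mul_cancel₀ hga
      have hrel : ∑ i ∈ insert a s, c i • v i = 0 := by
        have : ∑ i ∈ insert a s, c i • v i = (g a)⁻¹ • ∑ i ∈ insert a s, g i • v i := by
          rw [Finset.smul_sum]
          exact Finset.sum_congr rfl fun i _ => by rw [hc, mul_smul]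
        rw [this, hg, smul_zero]
      have hfix : ∀ i ∈ s, ∀ σ ∈ Γ, σ (c i) = c i := by
        intro i hi σ hσ
        have h1 := hconj _ c hrel σ hσ
        have h2 : ∑ i ∈ s, (σ (c i) - c i) • v i = 0 := by
          rw [Finset.sum_insert ha, hca, map_one] at h1
          rw [Finset.sum_insert ha, hca] at hrel
          have : ∑ i ∈ s, (σ (c i) - c i) • v i
              = ((1 : Qb) • v a + ∑ i ∈ s, σ (c i) • v i)
                - ((1 : Qb) • v a + ∑ i ∈ s, c i • v i) := by
            simp only [sub_smul, Finset.sum_sub_distrib]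
            abel
          rw [this, h1, hrel, sub_zero]
        exact sub_eq_zero.mp (ih _ h2 i hi)
      have hfix' : ∀ i ∈ insert a s, ∀ σ ∈ Γ, σ (c i) = c i := by
        intro i hi σ hσ
        rcases Finset.mem_insert.mp hi with rfl | hi
        · rw [hca, map_one]
        · exact hfix i hi σ hσ
      -- fractions
      have hfr : ∀ i, ∃ n d : R, d ≠ 0 ∧ (i ∈ insert a s →
          algebraMap R Qb d * c i = algebraMap R Qb n) := by
        intro i
        by_cases hi : i ∈ insert a s
        · obtain ⟨n, d, hd, h⟩ := hB.frac (c i) (hfix' i hi)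
          exact ⟨n, d, hd, fun _ => h⟩
        · exact ⟨0, 1, one_ne_zero, fun h => absurd h hi⟩
      choose n d hd hnd using hfr
      set D : R := ∏ i ∈ insert a s, d i with hD
      have hD0 : D ≠ 0 := Finset.prod_ne_zero_iff.mpr fun i _ => hd i
      -- the relation over `R`
      set r : ι → R := fun i => n i * ∏ j ∈ (insert a s).erase i, d j with hr
      have hri : ∀ i ∈ insert a s, algebraMap R Qb (r i) = algebraMap R Qb D * c i := by
        intro i hi
        rw [hr, hD, ← Finset.mul_prod_erase _ _ hi]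
        simp only [map_mul]
        rw [← hnd i hi]
        ring
      have hrel' : ∑ i ∈ insert a s, r i • v i = 0 := by
        have : ∑ i ∈ insert a s, r i • v i
            = algebraMap R Qb D • ∑ i ∈ insert a s, c i • v i := by
          rw [Finset.smul_sum]
          refine Finset.sum_congr rfl fun i hi => ?_
          rw [← mul_smul, ← hri i hi, algebraMap_smul]
        rw [this, hrel, smul_zero]
      have h0 := (linearIndependent_iff'.mp hli) _ r hrel' a (Finset.mem_insert_self a s)
      have h1 := hri a (Finset.mem_insert_self a s)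
      rw [h0, map_zero, hca, mul_one] at h1
      exact hD0 (hB.inj (by rw [← h1, map_zero]))

/-- an fg `R`-module of equivariant functions has a finite basis, which is linearly
independent over `ℚ̄`. -/
theorem exists_basis_of_fg (hB : IsBase R Γ) {M : Type} (act : Gal → M → M)
    (hact : ∀ σ ∈ Γ, Function.Surjective (act σ))
    (P : Submodule R (M → Qb)) (hfg : P.FG)
    (heqv : ∀ a ∈ P, ∀ σ ∈ Γ, ∀ x : M, a (act σ x) = σ (a x)) :
    ∃ (n : ℕ) (b : Fin n → M → Qb), (∀ i, b i ∈ P) ∧ LinearIndependent Qb b ∧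
      ∀ a ∈ P, ∃ r : Fin n → R, a = ∑ i, r i • b i := by
  classical
  have hinjR := hB.inj
  have hfin : Module.Finite R P := Module.Finite.iff_fg.2 hfg
  have htf : Module.IsTorsionFree R P := by
    apply Module.IsTorsionFree.of_smul_eq_zero
    intro r a hra
    by_cases hr : r = 0
    · exact Or.inl hr
    right
    apply Subtype.ext
    funext x
    have h1 : ((r • a : P) : M → Qb) x = 0 := by rw [hra]; rfl
    rw [Submodule.coe_smul, Pi.smul_apply, Algebra.smul_def] at h1
    rcases mul_eq_zero.1 h1 with h2 | h2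
    · exact absurd (hinjR (by rw [h2, map_zero])) hr
    · exact h2
  obtain ⟨n, b⟩ := Module.basisOfFiniteTypeTorsionFree' (R := R) (M := P)
  refine ⟨n, fun i => (b i : M → Qb), fun i => (b i).2, ?_, ?_⟩
  · apply linearIndependent_of_eqv hB act hact
    · intro i σ hσ x
      exact heqv _ (b i).2 σ hσ x
    · exact b.linearIndependent.map' P.subtype (Submodule.ker_subtype P)
  · intro a ha
    refine ⟨fun i => b.repr ⟨a, ha⟩ i, ?_⟩
    have h1 := b.sum_repr ⟨a, ha⟩
    have h2 := congrArg (P.subtype) h1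
    rw [map_sum] at h2
    simpa using h2.symm

/-- comparing coefficients. -/
theorem coeff_eq_of_li {ι X X' : Type} [Fintype ι] (b : ι → X → Qb) (hb : LinearIndependent Qb b)
    (β : ι → X' → Qb) (x₁ x₂ : X')
    (h : ∀ x, ∑ j, b j x * β j x₁ = ∑ j, b j x * β j x₂) : ∀ j, β j x₁ = β j x₂ := by
  have h1 : ∑ j, (β j x₁ - β j x₂) • b j = 0 := by
    funext x
    simp only [Finset.sum_apply, Pi.smul_apply, smul_eq_mul, Pi.zero_apply, sub_mul,
      Finset.sum_sub_distrib]
    rw [sub_eq_zero]
    simpa only [mul_comm] using h x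
  intro j
  exact sub_eq_zero.1 (Fintype.linearIndependent_iff.1 hb _ h1 j)

variable {M Z : Type} [AddCommGroup M] [Finite M] [AddCommGroup Z] {act : Gal → M → M}

theorem IsOrd.act_surjective {𝒜 : Subalgebra R (M → Qb)} (h : IsOrd R Γ act 𝒜) (σ : Gal)
    (hσ : σ ∈ Γ) : Function.Surjective (act σ) := by
  apply Finite.injective_iff_surjective.1
  intro x y hxy
  apply h.sep
  intro a ha
  apply σ.injective
  rw [← h.eqv a ha σ hσ, ← h.eqv a ha σ hσ, hxy]

/-- (O3) -/
theorem IsOrd.comul_quot (hB : IsBase R Γ) {𝒜 : Subalgebra R (M → Qb)} (h : IsOrd R Γ act 𝒜)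
    (π : M →+ Z) (hπ : Function.Surjective π)
    (φ : Z → Qb) (hφ : (fun x => φ (π x)) ∈ 𝒜) :
    ∃ (n : ℕ) (u v : Fin n → Z → Qb), (∀ i, (fun x => u i (π x)) ∈ 𝒜) ∧
      (∀ i, (fun x => v i (π x)) ∈ 𝒜) ∧ ∀ z z' : Z, φ (z + z') = ∑ i, u i z * v i z' := by
  classical
  have hsurj := h.act_surjective
  obtain ⟨s, hs⟩ := hπ.hasRightInverse
  have hdesc : ∀ f : M → Qb, (∀ x y, π y = 0 → f (x + y) = f x) →
      (fun x => f (s (π x))) = f := by
    intro f hf
    funext x
    have h1 : π (s (π x) - x) = 0 := by rw [map_sub, hs, sub_self]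
    have h2 := hf x _ h1
    rw [add_sub_cancel] at h2
    exact h2
  let P : Submodule R (M → Qb) :=
    { carrier := {f | f ∈ 𝒜 ∧ ∀ x y, π y = 0 → f (x + y) = f x}
      add_mem' := by
        rintro f g ⟨hf, hf'⟩ ⟨hg, hg'⟩
        refine ⟨𝒜.add_mem hf hg, fun x y hy => ?_⟩
        rw [Pi.add_apply, Pi.add_apply, hf' x y hy, hg' x y hy]
      zero_mem' := ⟨𝒜.zero_mem, fun _ _ _ => rfl⟩
      smul_mem' := by
        rintro r f ⟨hf, hf'⟩
        refine ⟨𝒜.smul_mem hf r, fun x y hy => ?_⟩
        rw [Pi.smul_apply, Pi.smul_apply, hf' x y hy] }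
  have hPle : P ≤ Subalgebra.toSubmodule 𝒜 := fun f hf => hf.1
  have hPfg : P.FG := by
    have h1 : IsNoetherian R (Subalgebra.toSubmodule 𝒜) :=
      isNoetherian_of_fg_of_noetherian _ h.fg
    exact (isNoetherian_submodule.1 h1) P hPle
  obtain ⟨n, b, hbA, hbli, hbspan⟩ := exists_basis_of_fg hB act hsurj
    (Subalgebra.toSubmodule 𝒜) h.fg h.eqv
  obtain ⟨m, d, hdP, hdli, hdspan⟩ := exists_basis_of_fg hB act hsurj P hPfg
    (fun a ha => h.eqv a ha.1)
  obtain ⟨k, u, v, hu, hv, huv⟩ := h.comul _ hφ
  choose r hr using fun i => hbspan (u i) (hu i)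
  let β : Fin n → M → Qb := fun j => ∑ i, r i j • v i
  have hβA : ∀ j, β j ∈ 𝒜 := fun j => 𝒜.sum_mem fun i _ => 𝒜.smul_mem (hv i) _
  have h1 : ∀ x x', φ (π (x + x')) = ∑ j, b j x * β j x' := by
    intro x x'
    rw [huv]
    have : ∀ i, u i x * v i x' = ∑ j, b j x * (r i j • v i) x' := by
      intro i
      conv_lhs => rw [hr i]
      rw [Finset.sum_apply, Finset.sum_mul]
      refine Finset.sum_congr rfl fun j _ => ?_
      simp only [Pi.smul_apply, Algebra.smul_def]
      ring
    simp only [this, β, Finset.sum_apply, Finset.mul_sum]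
    rw [Finset.sum_comm]
  have hβP : ∀ j, β j ∈ P := by
    intro j
    refine ⟨hβA j, fun x' y hy => ?_⟩
    refine coeff_eq_of_li b hbli β (x' + y) x' (fun x => ?_) j
    rw [← h1, ← h1, ← add_assoc, map_add _ _ y, hy, add_zero]
  choose t ht using fun j => hdspan (β j) (hβP j)
  let α : Fin m → M → Qb := fun k => ∑ j, t j k • b j
  have hαA : ∀ k, α k ∈ 𝒜 := fun k => 𝒜.sum_mem fun j _ => 𝒜.smul_mem (hbA j) _
  have h2 : ∀ x x', φ (π (x + x')) = ∑ k, d k x' * α k x := by
    intro x x'
    rw [h1]
    have : ∀ j, b j x * β j x' = ∑ k, d k x' * (t j k • b j) x := by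
      intro j
      conv_lhs => rw [ht j]
      rw [Finset.sum_apply, Finset.mul_sum]
      refine Finset.sum_congr rfl fun k _ => ?_
      simp only [Pi.smul_apply, Algebra.smul_def]
      ring
    simp only [this, α, Finset.sum_apply, Finset.mul_sum]
    rw [Finset.sum_comm]
  have hαinv : ∀ k x y, π y = 0 → α k (x + y) = α k x := by
    intro k x y hy
    refine coeff_eq_of_li d hdli α (x + y) x (fun x' => ?_) k
    rw [← h2, ← h2, map_add, map_add, map_add, hy, add_zero]
  refine ⟨m, fun k z => α k (s z), fun k z => d k (s z), fun k => ?_, fun k => ?_, ?_⟩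
  · rw [hdesc _ (hαinv k)]
    exact hαA k
  · rw [hdesc _ (hdP k).2]
    exact (hdP k).1
  · intro z z'
    have h3 := h2 (s z) (s z')
    rw [map_add, hs, hs] at h3
    rw [h3]
    exact Finset.sum_congr rfl fun k _ => mul_comm _ _

end Fermat.Agent.S33.OQ
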