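import Fermat.Agent.S33.OQ.QuotAB
import Fermat.Agent.S33.OQ.QuotC
import Fermat.Agent.S33.OQ.LemmaA

set_option autoImplicit false
set_option linter.unusedSectionVars false
set_option linter.unusedVariables false

/-!
# S33 / (OQ) : a module with a Hopf order over the inertia-fixed ring has no trivial subquotient
inside `I.X`
-/

namespace Fermat.Agent.S33.OQ

open Fermat.Agent.S19.Formal

section nonunits

variable (A : ValuationSubring Qb)

theorem nu_add {x y : Qb} (hx : x ∈ A.nonunits) (hy : y ∈ A.nonunits) : x + y ∈ A.nonunits := by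
  show A.valuation (x + y) < 1
  exact Valuation.map_add_lt _ hx hy

theorem nu_zero : (0 : Qb) ∈ A.nonunits := by
  show A.valuation 0 < 1
  rw [map_zero]
  exact zero_lt_one

theorem nu_mul {x c : Qb} (hx : x ∈ A.nonunits) (hc : c ∈ A) : x * c ∈ A.nonunits := by
  show A.valuation (x * c) < 1
  rw [map_mul]
  have h1 : A.valuation c ≤ 1 := (A.valuation_le_one_iff c).2 hc
  have h2 : A.valuation x < 1 := hx
  exact lt_of_le_of_lt (mul_le_of_le_one_right' h1) h2

theorem nu_sum {ι : Type*} (s : Finset ι) (f : ι → Qb) (h : ∀ i ∈ s, f i ∈ A.nonunits) :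
    ∑ i ∈ s, f i ∈ A.nonunits := by
  classical
  induction s using Finset.induction_on with
  | empty => rw [Finset.sum_empty]; exact nu_zero A
  | insert a s ha ih =>
    rw [Finset.sum_insert ha]
    exact nu_add A (h a (Finset.mem_insert_self a s))
      (ih fun i hi => h i (Finset.mem_insert_of_mem hi))

end nonunits

variable {R : Type} [CommRing R] [Algebra R Qb] {Γ : Subgroup Gal}

theorem mem_of_isIntegral (A : ValuationSubring Qb) (hRA : ∀ r : R, algebraMap R Qb r ∈ A)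
    {z : Qb} (hz : IsIntegral R z) : z ∈ A := by
  let f : R →+* A := (algebraMap R Qb).codRestrict A.toSubring hRA
  have h1 : ((algebraMap A Qb).comp f).IsIntegralElem z := hz
  have h2 : IsIntegral A z := RingHom.IsIntegralElem.of_comp h1
  obtain ⟨a, ha⟩ := (IsIntegrallyClosed.isIntegral_iff (R := A) (K := Qb)).1 h2
  rw [← ha]
  exact a.2

/-- restriction of an order to a subgroup. -/
theorem IsOrd.sub {M M' : Type} [AddCommGroup M] [AddCommGroup M']
    {act : Gal → M → M} {act' : Gal → M' → M'} (j : M' →+ M) (hj : Function.Injective j)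
    (hact : ∀ σ ∈ Γ, ∀ x, j (act' σ x) = act σ (j x)) {𝒜 : Subalgebra R (M → Qb)}
    (h : IsOrd R Γ act 𝒜) : IsOrd R Γ act' (𝒜.map (pull R (L := Qb) j)) := by
  refine ⟨?_, ?_, ?_, ?_⟩
  · rw [Subalgebra.map_toSubmodule]
    exact h.fg.map _
  · rintro _ ⟨a, ha, rfl⟩ σ hσ x
    show a (j (act' σ x)) = σ (a (j x))
    rw [hact σ hσ, h.eqv a ha σ hσ]
  · intro x x' hx
    apply hj
    apply h.sep
    intro a ha
    exact hx _ ⟨a, ha, rfl⟩
  · rintro _ ⟨a, ha, rfl⟩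
    obtain ⟨n, u, v, hu, hv, huv⟩ := h.comul a ha
    refine ⟨n, fun i => pull R j (u i), fun i => pull R j (v i), fun i => ⟨_, hu i, rfl⟩,
      fun i => ⟨_, hv i, rfl⟩, fun x x' => ?_⟩
    show a (j (x + x')) = _
    rw [map_add, huv]
    rfl

variable [IsDomain R] [IsPrincipalIdealRing R]

/-- **(O), abstract form.** -/
theorem nt_of_ord {p : ℕ} (hp : p.Prime) (hp2 : p ≠ 2) (A : ValuationSubring Qb)
    (hA : ((p : Qb))⁻¹ ∉ A) (hB : IsBase R Γ)
    (hRA : ∀ r : R, algebraMap R Qb r ∈ A)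
    (hΓ : ∀ σ ∈ Γ, ∀ z ∈ A, σ z - z ∈ A.nonunits)
    (hU : ∀ z : Qb, (∀ σ ∈ Γ, σ z = z) → z ∈ A.nonunits → ∃ a ∈ A, z = (p : Qb) * a)
    {X : Type} [AddCommGroup X] [Finite X] (act : Gal →* AddMonoid.End X) (n : ℕ)
    (hpow : ∀ x : X, p ^ n • x = 0)
    {𝒜 : Subalgebra R (X → Qb)} (h : IsOrd R Γ (fun σ x => act σ x) 𝒜)
    (K1 K2 : AddSubgroup X) (h21 : K2 ≤ K1)
    (hK1 : K1 ≤ AddSubgroup.closure {y | ∃ s ∈ Γ, ∃ x, y = act s x - x})
    (hK2 : ∀ s ∈ Γ, ∀ x ∈ K2, act s x ∈ K2)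
    (htriv : ∀ s ∈ Γ, ∀ x ∈ K1, act s x - x ∈ K2) : K1 ≤ K2 := by
  classical
  have hint : ∀ a ∈ 𝒜, ∀ x, a x ∈ A := fun a ha x => mem_of_isIntegral A hRA (h.isIntegral a ha x)
  -- the kernel of reduction
  let Kp : X → Prop := fun x => ∀ a ∈ 𝒜, a x - a 0 ∈ A.nonunits
  have hKp0 : Kp 0 := fun a _ => by rw [sub_self]; exact nu_zero A
  have hKpadd : ∀ x x', Kp x → Kp x' → Kp (x + x') := by
    intro x x' hx hx' a ha
    obtain ⟨m, u, v, hu, hv, huv⟩ := h.comul a ha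
    have e : a (x + x') - a 0 =
        ∑ i, ((u i x - u i 0) * v i x' + (v i x' - v i 0) * u i 0) := by
      conv_lhs => rw [← add_zero (0 : X), huv, huv, ← Finset.sum_sub_distrib]
      exact Finset.sum_congr rfl fun i _ => by ring
    rw [e]
    exact nu_sum A _ _ fun i _ => nu_add A (nu_mul A (hx _ (hu i)) (hint _ (hv i) _))
      (nu_mul A (hx' _ (hv i)) (hint _ (hu i) _))
  have hKpsmul : ∀ (k : ℕ) x, Kp x → Kp (k • x) := by
    intro k x hx
    induction k with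
    | zero => rw [zero_smul]; exact hKp0
    | succ k ih => rw [succ_nsmul]; exact hKpadd _ _ ih hx
  have hneg : ∀ x : X, -x = (p ^ n - 1) • x := by
    intro x
    have h1 : (p ^ n - 1) • x + x = 0 := by
      rw [← succ_nsmul, Nat.sub_add_cancel (Nat.one_le_pow _ _ hp.pos), hpow]
    exact (eq_neg_of_add_eq_zero_left h1).symm
  have hKpneg : ∀ x, Kp x → Kp (-x) := fun x hx => by rw [hneg]; exact hKpsmul _ _ hx
  have hKpgen : ∀ s ∈ Γ, ∀ x, Kp (act s x - x) := by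
    intro s hs x a ha
    obtain ⟨m, u, v, hu, hv, huv⟩ := h.comul a ha
    have e : a (act s x - x) - a 0 = ∑ i, (s (u i x) - u i x) * v i (-x) := by
      have h0 : a 0 = ∑ i, u i x * v i (-x) := by rw [← huv, add_neg_cancel]
      have h2 : a (act s x - x) = ∑ i, u i (act s x) * v i (-x) := by
        rw [sub_eq_add_neg, huv]
      rw [h2, h0, ← Finset.sum_sub_distrib]
      refine Finset.sum_congr rfl fun i _ => ?_
      rw [h.eqv _ (hu i) s hs]
      ring
    rw [e]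
    exact nu_sum A _ _ fun i _ => nu_mul A (hΓ s hs _ (hint _ (hu i) _)) (hint _ (hv i) _)
  have hKpcl : ∀ x ∈ AddSubgroup.closure {y | ∃ s ∈ Γ, ∃ x, y = act s x - x}, Kp x := by
    intro x h1
    induction h1 using AddSubgroup.closure_induction with
    | mem y hy =>
      obtain ⟨s, hs, x', rfl⟩ := hy
      exact hKpgen s hs x'
    | zero => exact hKp0
    | add y y' _ _ hy hy' => exact hKpadd _ _ hy hy'
    | neg y _ hy => exact hKpneg _ hy
  have hKpK1 : ∀ x ∈ K1, Kp x := fun x hx => hKpcl x (hK1 hx)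
  -- the sub-order on `K1`
  have hstab1 : ∀ s ∈ Γ, ∀ x ∈ K1, act s x ∈ K1 := by
    intro s hs x hx
    have h1 := K1.add_mem (h21 (htriv s hs x hx)) hx
    rwa [sub_add_cancel] at h1
  let act' : Gal → K1 → K1 := fun σ x => if hσ : σ ∈ Γ then ⟨act σ x, hstab1 σ hσ x x.2⟩ else x
  have hact' : ∀ σ ∈ Γ, ∀ x : K1, K1.subtype (act' σ x) = act σ (K1.subtype x) := by
    intro σ hσ x
    simp only [act', dif_pos hσ]
    rfl
  have h1 : IsOrd R Γ act' (𝒜.map (pull R (L := Qb) K1.subtype)) :=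
    h.sub K1.subtype K1.subtype_injective hact'
  set 𝒜1 := 𝒜.map (pull R (L := Qb) K1.subtype) with h𝒜1
  -- the quotient
  let N : AddSubgroup K1 := K2.addSubgroupOf K1
  let π : K1 →+ K1 ⧸ N := QuotientAddGroup.mk' N
  have hπ : Function.Surjective π := QuotientAddGroup.mk'_surjective N
  have hπ0 : ∀ x : K1, π x = 0 ↔ (x : X) ∈ K2 := by
    intro x
    rw [QuotientAddGroup.mk'_apply, QuotientAddGroup.eq_zero_iff]
    exact AddSubgroup.mem_addSubgroupOf
  have hπact : ∀ σ ∈ Γ, ∀ x : K1, π (act' σ x) = π x := by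
    intro σ hσ x
    rw [← sub_eq_zero, ← map_sub, hπ0]
    have := htriv σ hσ x x.2
    have e : ((act' σ x - x : K1) : X) = act σ x - x := by
      rw [AddSubgroup.coe_sub]
      congr 1
      exact hact' σ hσ x
    rw [e]
    exact this
  have hker : ∀ σ ∈ Γ, ∀ y : K1, π y = 0 → π (act' σ y) = 0 := by
    intro σ hσ y hy
    rw [hπact σ hσ, hy]
  let ℬ : Set ((K1 ⧸ N) → Qb) := {φ | (fun x => φ (π x)) ∈ 𝒜1}
  have hℬ : ∀ φ ∈ ℬ, ∃ a ∈ 𝒜, ∀ x : K1, φ (π x) = a x := by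
    intro φ hφ
    obtain ⟨a, ha, hae⟩ := hφ
    exact ⟨a, ha, fun x => (congrFun hae x).symm⟩
  have hval : ∀ φ ∈ ℬ, ∀ z, φ z ∈ A := by
    intro φ hφ z
    obtain ⟨x, rfl⟩ := hπ z
    obtain ⟨a, ha, hae⟩ := hℬ φ hφ
    rw [hae]
    exact hint a ha _
  have hfix : ∀ φ ∈ ℬ, ∀ z, ∀ σ ∈ Γ, σ (φ z) = φ z := by
    intro φ hφ z σ hσ
    obtain ⟨x, rfl⟩ := hπ z
    have := h1.eqv _ hφ σ hσ x
    rw [← this]
    show φ (π (act' σ x)) = φ (π x)
    rw [hπact σ hσ]
  have hcl : ∀ φ ∈ ℬ, ∀ z, ∃ a ∈ A, φ z - φ 0 = (p : Qb) * a := by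
    intro φ hφ z
    apply hU
    · intro σ hσ
      rw [map_sub, hfix φ hφ z σ hσ, hfix φ hφ 0 σ hσ]
    · obtain ⟨x, rfl⟩ := hπ z
      obtain ⟨a, ha, hae⟩ := hℬ φ hφ
      have h0 : φ 0 = a 0 := by
        have := hae 0
        rwa [map_zero] at this
      rw [hae, h0]
      exact hKpK1 x x.2 a ha
  have hcomul : ∀ φ ∈ ℬ, ∃ (m : ℕ) (u v : Fin m → (K1 ⧸ N) → Qb), (∀ i, u i ∈ ℬ) ∧
      (∀ i, v i ∈ ℬ) ∧ ∀ z z', φ (z + z') = ∑ i, u i z * v i z' :=
    fun φ hφ => h1.comul_quot hB π hπ φ hφ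
  have hord : ∀ y : K1 ⧸ N, p • y = 0 → y = 0 := by
    intro y hy
    apply h1.sep_quot hB π hπ hker
    intro φ hφ
    exact lemmaA hp hp2 A hA ℬ hval hcl hcomul y hy φ hφ
  have hall : ∀ (k : ℕ) (z : K1 ⧸ N), p ^ k • z = 0 → z = 0 := by
    intro k
    induction k with
    | zero => intro z hz; simpa using hz
    | succ k ih =>
      intro z hz
      apply ih
      apply hord
      rw [← mul_smul, ← pow_succ']
      exact hz
  intro x hx
  have h2 : π ⟨x, hx⟩ = 0 := by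
    apply hall n
    rw [← map_nsmul]
    have : p ^ n • (⟨x, hx⟩ : K1) = 0 := Subtype.ext (by
      rw [AddSubgroup.coe_nsmul]; exact hpow x)
    rw [this, map_zero]
  exact (hπ0 _).1 h2

end Fermat.Agent.S33.OQ
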