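import Fermat.Agent.S33.OQ.Final
import Fermat.Agent.S33.O.RIBase
import Fermat.Agent.S33.O.OfHopfSpan
import Fermat.Agent.S33.Geo
import Fermat.Agent.S32.Top

set_option autoImplicit false

/-!
# S33 / (O), route Q : `OStatement`

`V_{p^n}(M)` (`p ∤ M`) is flat at `p` (S19/S32), hence carries a Hopf order over `R = A^{I}`; the abstract
theorem `nt_of_ord` says that the augmentation part has no trivial subquotient.
-/

namespace Fermat.Agent.S33.OQ

open Fermat.Agent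
open Fermat.Agent.S19.Formal

theorem inv_not_mem_of_lies {p : ℕ} (hp : p.Prime) (A : ValuationSubring Qb)
    (hA : A.LiesOverPrime p) : ((p : Qb))⁻¹ ∉ A := by
  intro h
  have h1 : (p : Qb) ∈ A.nonunits := hA
  have h2 : (p : Qb) ≠ 0 := Nat.cast_ne_zero.2 hp.ne_zero
  obtain ⟨ha, hm⟩ := (ValuationSubring.mem_nonunits_iff_exists_mem_maximalIdeal).1 h1
  apply (IsLocalRing.mem_maximalIdeal _).1 hm
  exact IsUnit.of_mul_eq_one (⟨_, h⟩ : A) (Subtype.ext (mul_inv_cancel₀ h2))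

/-- **(O)**, abstract Galois module version: a finite `p`-power torsion module which is flat at `p`. -/
theorem nt_of_conclusion {p : ℕ} (hp : p.Prime) (hp2 : p ≠ 2) (A : ValuationSubring Qb)
    (hA : A.LiesOverPrime p) {X : Type} [AddCommGroup X] [Finite X]
    (act : Gal →* AddMonoid.End X) (n : ℕ) (hpow : ∀ x : X, p ^ n • x = 0)
    (h : Conclusion p X (fun σ x => act σ x)) :
    NT (A.inertiaSubgroupIn ℚ) act (aug (A.inertiaSubgroupIn ℚ) act) := by
  have : Fact p.Prime := ⟨hp⟩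
  have hA' := inv_not_mem_of_lies hp A hA
  have hB : IsBase (RIB.RI A) (A.inertiaSubgroupIn ℚ) :=
    ⟨RIB.RI_inj A, RIB.RI_fix A, RIB.RI_mem A, RIB.RI_frac A⟩
  have hPID := RIB.isPrincipalIdealRing_RI A hp hA
  have hRl : ∀ r : Rl p, ∃ r' : RIB.RI A,
      algebraMap (RIB.RI A) Qb r' = algebraMap (Rl p) Qb r := by
    intro r
    exact ⟨⟨algebraMap (Rl p) Qb r, algebraMap_Rl_mem p A hA' r,
      fun σ _ => gal_algebraMap_Rl p σ r⟩, rfl⟩
  obtain ⟨𝒜, h1, h2, h3, h4, -⟩ :=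
    O.exists_ord_core (R := RIB.RI A) (A.inertiaSubgroupIn ℚ) (RIB.RI_fix A) hRl h
  have hO : IsOrd (RIB.RI A) (A.inertiaSubgroupIn ℚ) (fun σ x => act σ x) 𝒜 := ⟨h1, h2, h3, h4⟩
  intro K1 K2 h21 hK1 hK2 htriv
  exact nt_of_ord hp hp2 A hA' hB (fun r => r.2.1)
    (fun σ hσ z hz => S05.sub_mem_nonunits_of_mem_inertia hσ hz)
    (fun z hfix hz => RIB.U A hp hA hfix hz) act n hpow hO K1 K2 h21 hK1 hK2 htriv

/-- **chapter (O)**. -/
theorem main : OStatement := by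
  intro M p _ hp hp2 hpM n P hP
  have : Fact p.Prime := ⟨hp⟩
  have : NeZero (p ^ n) := ⟨pow_ne_zero _ hp.ne_zero⟩
  have : Finite (GES.VN M (p ^ n)) := S17.WMW.finite_VN M (p ^ n)
  exact nt_of_conclusion hp hp2 P hP (GES.actV M (p ^ n)) n (fun x => GES.Vm.nsmul_eq_zero x)
    (S32.flat_of_ann M p hpM n (GES.actV M (p ^ n)) (fun _ h => h))

end Fermat.Agent.S33.OQ
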