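import Fermat.Agent.S33.OQ.Defs

set_option autoImplicit false
set_option linter.unusedSectionVars false
set_option linter.unusedVariables false

/-!
# S33 / (OQ) : traces stay in the order; invariant functions separate the points of the quotient
(port of S32/Flat/QuotA, QuotB to `(R, Γ)`)
-/

namespace Fermat.Agent.S33.OQ

open Fermat.Agent.S19.Formal

variable {R : Type} [CommRing R] [Algebra R Qb] {Γ : Subgroup Gal}
  {M : Type} [AddCommGroup M] {act : Gal → M → M}

theorem IsOrd.act_injective {𝒜 : Subalgebra R (M → Qb)} (h : IsOrd R Γ act 𝒜)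
    (σ : Gal) (hσ : σ ∈ Γ) : Function.Injective (act σ) := by
  intro x x' hx
  apply h.sep
  intro a ha
  have h1 := h.eqv a ha σ hσ x
  rw [hx, h.eqv a ha σ hσ x'] at h1
  exact (σ.injective h1).symm

theorem IsOrd.isIntegral {𝒜 : Subalgebra R (M → Qb)} (h : IsOrd R Γ act 𝒜)
    (a : M → Qb) (ha : a ∈ 𝒜) (x : M) : IsIntegral R (a x) := by
  have h1 : IsIntegral R a := IsIntegral.of_mem_of_fg 𝒜 h.fg a ha
  exact h1.map (Pi.evalAlgHom R (fun _ : M => Qb) x)

/-- traces. -/
theorem IsOrd.trace_mem (hB : IsBase R Γ) {𝒜 : Subalgebra R (M → Qb)} (h : IsOrd R Γ act 𝒜)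
    (Y : Finset M) (hY : ∀ σ ∈ Γ, ∀ y ∈ Y, act σ y ∈ Y) (a : M → Qb) (ha : a ∈ 𝒜) :
    (fun x => ∑ y ∈ Y, a (x + y)) ∈ 𝒜 := by
  classical
  obtain ⟨n, u, v, hu, hv, huv⟩ := h.comul a ha
  have hs : ∀ i, ∃ r : R, algebraMap R Qb r = ∑ y ∈ Y, v i y := by
    intro i
    apply hB.mem
    · intro σ hσ
      rw [map_sum]
      have h1 : ∀ y ∈ Y, σ (v i y) = v i (act σ y) := fun y _ => (h.eqv _ (hv i) σ hσ y).symm
      rw [Finset.sum_congr rfl h1]
      have h2 : Y.image (act σ) = Y := by
        apply Finset.eq_of_subset_of_card_le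
        · intro y hy
          obtain ⟨y', hy', rfl⟩ := Finset.mem_image.mp hy
          exact hY σ hσ y' hy'
        · rw [Finset.card_image_of_injective _ (h.act_injective σ hσ)]
      conv_rhs => rw [← h2]
      rw [Finset.sum_image fun y _ y' _ hyy => h.act_injective σ hσ hyy]
    · exact IsIntegral.sum _ fun y _ => h.isIntegral _ (hv i) y
  choose r hr using hs
  have h3 : (fun x => ∑ y ∈ Y, a (x + y)) = ∑ i, r i • u i := by
    funext x
    simp only [huv, Finset.sum_apply, Pi.smul_apply]
    rw [Finset.sum_comm]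
    refine Finset.sum_congr rfl fun i _ => ?_
    rw [Algebra.smul_def, hr, ← Finset.mul_sum, mul_comm]
  rw [h3]
  exact Subalgebra.sum_mem _ fun i _ => Subalgebra.smul_mem _ (hu i) _

variable {Z : Type} [AddCommGroup Z]

/-- the sum over the fibres of `π` of a function of the order is in the order. -/
theorem IsOrd.fibre_mem (hB : IsBase R Γ) {𝒜 : Subalgebra R (M → Qb)} (h : IsOrd R Γ act 𝒜)
    [Fintype M] [DecidableEq Z]
    (π : M →+ Z) (hker : ∀ σ ∈ Γ, ∀ y, π y = 0 → π (act σ y) = 0) (a : M → Qb) (ha : a ∈ 𝒜) :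
    (fun x => ∑ m with π m = π x, a m) ∈ 𝒜 := by
  classical
  have h1 := h.trace_mem hB (Finset.univ.filter fun y => π y = 0) (by
    intro σ hσ y hy
    simp only [Finset.mem_filter, Finset.mem_univ, true_and] at hy ⊢
    exact hker σ hσ y hy) a ha
  convert h1 using 2 with x
  symm
  apply Finset.sum_bij (fun y _ => x + y)
  · intro y hy
    simp only [Finset.mem_filter, Finset.mem_univ, true_and] at hy ⊢
    rw [map_add, hy, add_zero]
  · intro y _ y' _ hyy
    exact add_left_cancel hyy
  · intro m hm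
    simp only [Finset.mem_filter, Finset.mem_univ, true_and] at hm
    refine ⟨m - x, ?_, by abel⟩
    simp only [Finset.mem_filter, Finset.mem_univ, true_and]
    rw [map_sub, hm, sub_self]
  · intro y _
    rfl

/-- the evaluations at the points of `M` are linearly independent on the order. -/
theorem IsOrd.ev_linearIndependent {𝒜 : Subalgebra R (M → Qb)} (h : IsOrd R Γ act 𝒜) :
    LinearIndependent Qb (fun (m : M) (a : 𝒜) => (a : M → Qb) m) := by
  let ev : M → (𝒜 →* Qb) := fun m =>
    { toFun := fun a => (a : M → Qb) m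
      map_one' := rfl
      map_mul' := fun _ _ => rfl }
  have hev : Function.Injective ev := by
    intro m m' hm
    apply h.sep
    intro a ha
    exact DFunLike.congr_fun hm (⟨a, ha⟩ : 𝒜)
  exact (linearIndependent_monoidHom 𝒜 Qb).comp ev hev

/-- the invariant functions separate the points of the quotient. -/
theorem IsOrd.sep_quot [Finite M] (hB : IsBase R Γ) {𝒜 : Subalgebra R (M → Qb)}
    (h : IsOrd R Γ act 𝒜)
    (π : M →+ Z) (hπ : Function.Surjective π)
    (hker : ∀ σ ∈ Γ, ∀ y, π y = 0 → π (act σ y) = 0)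
    (z z' : Z) (hz : ∀ φ : Z → Qb, (fun x => φ (π x)) ∈ 𝒜 → φ z = φ z') : z = z' := by
  classical
  have := Fintype.ofFinite M
  obtain ⟨x, rfl⟩ := hπ z
  have hli := Fintype.linearIndependent_iff.mp h.ev_linearIndependent
    (fun m => (if π m = π x then 1 else 0) - (if π m = z' then 1 else 0)) (by
      funext a
      have h1 := hz (fun w => ∑ m with π m = w, (a : M → Qb) m)
        (h.fibre_mem hB π hker a a.2)
      simp only [Finset.sum_apply, Pi.smul_apply, smul_eq_mul, sub_mul, ite_mul, one_mul,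
        zero_mul, Finset.sum_sub_distrib, Pi.zero_apply]
      rw [← Finset.sum_filter, ← Finset.sum_filter, sub_eq_zero]
      exact h1) x
  by_contra hne
  simp only [if_true, if_neg hne, sub_zero] at hli
  exact one_ne_zero hli

end Fermat.Agent.S33.OQ
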